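import Mathlib
import Fermat.Agent.LT.H556.A0
import Fermat.Agent.LT.T1.Spec
import Fermat.Agent.LT.T5.Spec
import Fermat.Agent.LT.T5.H29.TwSpec

/-!
# Row LT, tower T5, sub-leaf T5.07b `UpperNotRegC` (owner helper787) — OFF-MAIN

Bytes typed against: `T5/H29/TwSpec.lean` helper29@dedb60878 (sha256 08555f0f), `T5/Spec.lean`
(sha256 0d469f71), `T1/Spec.lean` (sha256 e8ae48d6), `H556/A0.lean` (sha256 66d3374a),
byte-identical copies.

`upperNotRegC787 : T5.H29.UpperNotRegC s l k` (VERBATIM, unconditional): for an upper triangular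
`δ ∈ GL₂(K)` the norm `δ σ(δ) ⋯ σ^{l-1}(δ)` is upper triangular, its upper left entry `A`
satisfies `a σ(A) = A σ^l(a) = A a` with `a = δ₀₀ ≠ 0`, so `A` lies in the fixed field `k` and is
a root of the characteristic polynomial; a polynomial over `k` of degree `2` with a root in `k`
is not irreducible.

Pure algebra: only `IsCyclicOfDegree.pow_eq` and `IsCyclicOfDegree.fixed` are used.
-/

set_option autoImplicit false

open IsDedekindDomain NumberField Polynomial

noncomputable section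

namespace Fermat.Agent.LT.T5.H787

open Fermat.Agent.LT.H556.A0 Fermat.Agent.LT.T5 Fermat.Agent.LT

variable {K : Type} [Field K] [NumberField K]

/-- The entries of `σ(g)`. -/
theorem onRat_apply787 (s : AdelicAut K) (g : GL (Fin 2) K) (i j : Fin 2) :
    (s.onRat g : Matrix (Fin 2) (Fin 2) K) i j = s.σ ((g : Matrix (Fin 2) (Fin 2) K) i j) :=
  rfl

/-- The entries of the next partial norm. -/
theorem normUpTo_succ_apply787 (s : AdelicAut K) (n : ℕ) (δ : GL (Fin 2) K) (i j : Fin 2) :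
    (s.normUpTo (n + 1) δ : Matrix (Fin 2) (Fin 2) K) i j
      = (δ : Matrix (Fin 2) (Fin 2) K) i 0
          * s.σ ((s.normUpTo n δ : Matrix (Fin 2) (Fin 2) K) 0 j)
        + (δ : Matrix (Fin 2) (Fin 2) K) i 1
          * s.σ ((s.normUpTo n δ : Matrix (Fin 2) (Fin 2) K) 1 j) := by
  show ((δ * s.onRat (s.normUpTo n δ) : GL (Fin 2) K) : Matrix (Fin 2) (Fin 2) K) i j = _
  rw [Matrix.GeneralLinearGroup.coe_mul, Matrix.mul_apply, Fin.sum_univ_two,
    onRat_apply787, onRat_apply787]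

/-- The partial norms of an upper triangular element are upper triangular, and their diagonal
entries are the partial norms of the diagonal entries (in the multiplicative form
`a σ(Aₙ) = Aₙ σⁿ(a)`). -/
theorem normUpTo_upper787 (s : AdelicAut K) (δ : GL (Fin 2) K)
    (hδ : (δ : Matrix (Fin 2) (Fin 2) K) 1 0 = 0) (n : ℕ) :
    (s.normUpTo n δ : Matrix (Fin 2) (Fin 2) K) 1 0 = 0 ∧
      (δ : Matrix (Fin 2) (Fin 2) K) 0 0
          * s.σ ((s.normUpTo n δ : Matrix (Fin 2) (Fin 2) K) 0 0)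
        = (s.normUpTo n δ : Matrix (Fin 2) (Fin 2) K) 0 0
          * (s.σ ^ n) ((δ : Matrix (Fin 2) (Fin 2) K) 0 0) := by
  induction n with
  | zero =>
    have h1 : (s.normUpTo 0 δ : Matrix (Fin 2) (Fin 2) K) = 1 := rfl
    rw [h1]
    simp
  | succ n ih =>
    obtain ⟨ih0, ih1⟩ := ih
    have e10 : (s.normUpTo (n + 1) δ : Matrix (Fin 2) (Fin 2) K) 1 0 = 0 := by
      rw [normUpTo_succ_apply787, hδ, ih0]
      simp
    have e00 : (s.normUpTo (n + 1) δ : Matrix (Fin 2) (Fin 2) K) 0 0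
        = (δ : Matrix (Fin 2) (Fin 2) K) 0 0
          * s.σ ((s.normUpTo n δ : Matrix (Fin 2) (Fin 2) K) 0 0) := by
      rw [normUpTo_succ_apply787, ih0]
      simp
    refine ⟨e10, ?_⟩
    have hpow : (s.σ ^ (n + 1)) ((δ : Matrix (Fin 2) (Fin 2) K) 0 0)
        = s.σ ((s.σ ^ n) ((δ : Matrix (Fin 2) (Fin 2) K) 0 0)) := by
      rw [pow_succ']
      rfl
    rw [hpow, e00]
    calc (δ : Matrix (Fin 2) (Fin 2) K) 0 0
          * s.σ ((δ : Matrix (Fin 2) (Fin 2) K) 0 0
            * s.σ ((s.normUpTo n δ : Matrix (Fin 2) (Fin 2) K) 0 0))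
        = (δ : Matrix (Fin 2) (Fin 2) K) 0 0
          * s.σ ((s.normUpTo n δ : Matrix (Fin 2) (Fin 2) K) 0 0
            * (s.σ ^ n) ((δ : Matrix (Fin 2) (Fin 2) K) 0 0)) := by rw [ih1]
      _ = (δ : Matrix (Fin 2) (Fin 2) K) 0 0
          * s.σ ((s.normUpTo n δ : Matrix (Fin 2) (Fin 2) K) 0 0)
          * s.σ ((s.σ ^ n) ((δ : Matrix (Fin 2) (Fin 2) K) 0 0)) := by
        rw [map_mul, mul_assoc]

omit [NumberField K] in
/-- The upper left entry of an invertible upper triangular matrix is not zero. -/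
theorem upper_left_ne_zero787 (δ : GL (Fin 2) K)
    (hδ : (δ : Matrix (Fin 2) (Fin 2) K) 1 0 = 0) :
    (δ : Matrix (Fin 2) (Fin 2) K) 0 0 ≠ 0 := by
  intro h0
  have hdet : (δ : Matrix (Fin 2) (Fin 2) K).det ≠ 0 :=
    (Matrix.isUnit_iff_isUnit_det _).1 δ.isUnit |>.ne_zero
  apply hdet
  rw [Matrix.det_fin_two, h0, hδ]
  simp

omit [NumberField K] in
/-- An upper triangular `2 × 2` matrix has its upper left entry as a root of its characteristic
polynomial. -/
theorem charpoly_eval_upper_left787 (N : Matrix (Fin 2) (Fin 2) K) (hN : N 1 0 = 0) :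
    N.charpoly.eval (N 0 0) = 0 := by
  rw [Matrix.charpoly_fin_two, Matrix.trace_fin_two, Matrix.det_fin_two, hN]
  simp only [eval_add, eval_sub, eval_mul, eval_pow, eval_X, eval_C]
  ring

/-- **T5.07b `UpperNotRegC`** (VERBATIM, unconditional). -/
theorem upperNotRegC787 (s : AdelicAut K) (l : ℕ) (k : Subfield K) :
    Fermat.Agent.LT.T5.H29.UpperNotRegC s l k := by
  intro hcyc δ hδ hreg
  obtain ⟨Q, hQirr, hQ⟩ := hreg
  obtain ⟨hN10, hNA⟩ := normUpTo_upper787 s δ hδ l
  set N : Matrix (Fin 2) (Fin 2) K := (s.normUpTo l δ : Matrix (Fin 2) (Fin 2) K) with hNdef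
  have ha : (δ : Matrix (Fin 2) (Fin 2) K) 0 0 ≠ 0 := upper_left_ne_zero787 δ hδ
  -- the upper left entry of the norm is fixed by `σ`
  have hfix : s.σ (N 0 0) = N 0 0 := by
    rw [hcyc.pow_eq, mul_comm (N 0 0)] at hNA
    exact mul_left_cancel₀ ha hNA
  have hmem : N 0 0 ∈ k := (hcyc.fixed _).2 hfix
  -- it is a root of `Q`
  have hroot : Q.IsRoot ⟨N 0 0, hmem⟩ := by
    have h1 : (Q.map (algebraMap k K)).eval (algebraMap k K ⟨N 0 0, hmem⟩)
        = algebraMap k K (Q.eval ⟨N 0 0, hmem⟩) := by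
      rw [eval_map, ← eval₂_hom]
    have h2 : (Q.map (algebraMap k K)).eval (algebraMap k K ⟨N 0 0, hmem⟩) = 0 := by
      rw [hQ]
      exact charpoly_eval_upper_left787 N hN10
    rw [h1] at h2
    exact (map_eq_zero (algebraMap k K)).1 h2
  -- so `Q` has degree one, but the characteristic polynomial has degree two
  have hdeg1 : Q.degree = 1 := degree_eq_one_of_irreducible_of_root hQirr hroot
  have hdeg2 : (Q.map (algebraMap k K)).degree = 2 := by
    rw [hQ, Matrix.charpoly_degree_eq_dim]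
    simp
  rw [degree_map, hdeg1] at hdeg2
  exact absurd hdeg2 (by norm_num)

end Fermat.Agent.LT.T5.H787

end
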